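/-
S44 / X / PL, node P6 (helper246): `RegPt.dense`: an element of `F` integral over the regular point
`R` is congruent, on every sheet over `V c`, to an element of `R`  (`S / P_i = R / (π c)`).
-/
import Fermat.Agent.S44.X.PL.Defs
import Fermat.Agent.S44.X.PL.Sheets.Basic
import Fermat.Agent.S44.X.PL.Sheets.Dense
import Fermat.Agent.S36.BP.Rad
import Fermat.Agent.S36.BP.Normal
import Fermat.Agent.S18.Chart.Mem

set_option autoImplicit false

noncomputable section

namespace Fermat.Agent.S44.PL

open Fermat.Agent.S18 Fermat.Agent.S36.BP Fermat.Agent.KLB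

section Normal

variable {K₀ F : Type*} [Field K₀] [Field F] [Algebra K₀ F] {A₀ : ValuationSubring K₀}

/-- `R / (R ∩ 𝔪_W)` is a valuation ring, elementwise form. -/
theorem p6_total {R : Subring F} (hR : IsPt A₀ R) {W : ValuationSubring F} (hT : Through R W) :
    ∀ s ∈ R, ∀ a ∈ R, (∃ r ∈ R, W.valuation (a - s * r) < 1) ∨
      (∃ t ∈ R, W.valuation (s - a * t) < 1) := by
  classical
  have := hR.isLocalRing
  have := hR.noeth
  let f : R →+* W := Subring.inclusion (show R ≤ W.toSubring from hT.le)
  let P : Ideal R := (IsLocalRing.maximalIdeal W).comap f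
  have hPp : P.IsPrime := Ideal.comap_isPrime f _
  have hP : ∀ r : R, r ∈ P ↔ W.valuation (r : F) < 1 := fun r => by
    rw [Ideal.mem_comap, ValuationSubring.valuation_lt_one_iff]
    rfl
  have : IsLocalRing (R ⧸ P) :=
    IsLocalRing.of_surjective' (Ideal.Quotient.mk P) Ideal.Quotient.mk_surjective
  have hPle : P ≤ IsLocalRing.maximalIdeal R := IsLocalRing.le_maximalIdeal hPp.ne_top
  obtain ⟨t, ht, hdvr⟩ := hT.dvr
  have hprin : (IsLocalRing.maximalIdeal (R ⧸ P)).IsPrincipal := by
    refine ⟨⟨Ideal.Quotient.mk P ⟨t, ht.1⟩, ?_⟩⟩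
    apply le_antisymm
    · intro z hz
      obtain ⟨y, rfl⟩ := Ideal.Quotient.mk_surjective z
      have hy : (y : F) ∈ rad R := by
        rw [mem_rad_iff_not_isUnit]
        intro hu
        exact hz (hu.map (Ideal.Quotient.mk P))
      obtain ⟨r, hr, hlt⟩ := hdvr _ hy
      rw [Ideal.submodule_span_eq, Ideal.mem_span_singleton']
      refine ⟨Ideal.Quotient.mk P ⟨r, hr⟩, ?_⟩
      rw [← map_mul, eq_comm, Ideal.Quotient.eq, hP]
      exact hlt
    · rw [Ideal.submodule_span_eq, Ideal.span_le, Set.singleton_subset_iff, SetLike.mem_coe,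
        IsLocalRing.mem_maximalIdeal, mem_nonunits_iff]
      intro hu
      obtain ⟨b', hb'⟩ := isUnit_iff_exists_inv.1 hu
      obtain ⟨b, rfl⟩ := Ideal.Quotient.mk_surjective b'
      rw [← map_mul, ← map_one (Ideal.Quotient.mk P), Ideal.Quotient.eq] at hb'
      have h1 : (⟨t, ht.1⟩ : R) ∈ IsLocalRing.maximalIdeal R := by
        rw [IsLocalRing.mem_maximalIdeal, mem_nonunits_iff, ← mem_rad_iff_not_isUnit]
        exact ht
      have h2 : (1 : R) ∈ IsLocalRing.maximalIdeal R := by
        have := (IsLocalRing.maximalIdeal R).sub_mem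
          ((IsLocalRing.maximalIdeal R).mul_mem_right b h1) (hPle hb')
        simp at this
      exact (Ideal.ne_top_iff_one _).1 (IsLocalRing.maximalIdeal.isMaximal R).ne_top h2
  have : ValuationRing (R ⧸ P) :=
    ((tfae_of_isNoetherianRing_of_isLocalRing_of_isDomain (R ⧸ P)).out 4 1).1 hprin
  intro s hs a ha
  rcases ValuationRing.dvd_total (Ideal.Quotient.mk P ⟨s, hs⟩) (Ideal.Quotient.mk P ⟨a, ha⟩) with
    ⟨c, hc⟩ | ⟨c, hc⟩
  · obtain ⟨r, rfl⟩ := Ideal.Quotient.mk_surjective c
    rw [← map_mul, Ideal.Quotient.eq, hP] at hc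
    exact Or.inl ⟨r, r.2, hc⟩
  · obtain ⟨r, rfl⟩ := Ideal.Quotient.mk_surjective c
    rw [← map_mul, Ideal.Quotient.eq, hP] at hc
    exact Or.inr ⟨r, r.2, hc⟩

/-- **The components are normal at `R`**: an element of `W` whose residue class is integral over
`R / (R ∩ 𝔪_W)` is congruent to an element of `R`. -/
theorem p6_exists_cg_of_monic {R : Subring F} (hR : IsPt A₀ R) {W : ValuationSubring F}
    (hT : Through R W) {e : F} (he : e ∈ W) (P : Polynomial R) (hP : P.Monic)
    (h : W.valuation (Polynomial.aeval e P) < 1) : ∃ r ∈ R, W.valuation (e - r) < 1 := by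
  obtain ⟨s, hs, hs1, hse⟩ := hT.loc e he
  rcases p6_total hR hT s hs (s * e) hse with ⟨r, hr, hlt⟩ | ⟨t, ht, hlt⟩
  · refine ⟨r, hr, ?_⟩
    rwa [← mul_sub, map_mul, hs1, one_mul] at hlt
  · have hlt' : W.valuation (1 - e * t) < 1 := by
      have : s - s * e * t = s * (1 - e * t) := by ring
      rwa [this, map_mul, hs1, one_mul] at hlt
    rcases runit_or_mem_rad ht with hu | hrad
    · refine ⟨t⁻¹, hu.inv_mem, ?_⟩
      have h1 : e - t⁻¹ = -(t⁻¹ * (1 - e * t)) := by
        have := hu.ne_zero
        field_simp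
        ring
      rw [h1, Valuation.map_neg, map_mul, RUnit.val_eq_one hT.le hu.inv, one_mul]
      exact hlt'
    · exfalso
      let f : R →+* W := Subring.inclusion (show R ≤ W.toSubring from hT.le)
      let φ : R →+* IsLocalRing.ResidueField W := (IsLocalRing.residue W).comp f
      have hφ : ∀ r : R, φ r = 0 ↔ W.valuation (r : F) < 1 := fun r => by
        show IsLocalRing.residue W (f r) = 0 ↔ _
        rw [IsLocalRing.residue_eq_zero_iff, ValuationSubring.valuation_lt_one_iff]
        rfl
      set e' : W := ⟨e, he⟩ with he'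
      set t' : R := ⟨t, ht⟩ with ht'
      have h1 : IsLocalRing.residue W e' * φ t' = 1 := by
        have h2 : IsLocalRing.residue W (1 - e' * f t') = 0 := by
          rw [IsLocalRing.residue_eq_zero_iff, ValuationSubring.valuation_lt_one_iff]
          exact hlt'
        rw [map_sub, map_one, map_mul, sub_eq_zero] at h2
        exact h2.symm
      have h2 : Polynomial.eval₂ φ (IsLocalRing.residue W e') P = 0 := by
        rw [← Polynomial.hom_eval₂ P f (IsLocalRing.residue W) e',
          IsLocalRing.residue_eq_zero_iff, ValuationSubring.valuation_lt_one_iff]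
        have h3 : ((Polynomial.eval₂ f e' P : W) : F) = Polynomial.aeval e P := by
          have := Polynomial.hom_eval₂ P f W.subtype e'
          rw [Polynomial.aeval_def]
          exact this
        rw [h3]
        exact h
      let _ : Invertible (IsLocalRing.residue W e') := ⟨φ t', by rw [mul_comm]; exact h1, h1⟩
      have h3 : Polynomial.eval₂ φ (φ t') P.reverse = 0 :=
        (Polynomial.eval₂_reverse_eq_zero_iff φ (IsLocalRing.residue W e') P).2 h2
      rw [Polynomial.eval₂_at_apply, hφ] at h3
      have h4 : Polynomial.eval t' P.reverse =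
          Polynomial.eval t' P.reverse.divX * t' + 1 := by
        conv_lhs => rw [← Polynomial.divX_mul_X_add P.reverse]
        rw [Polynomial.eval_add, Polynomial.eval_mul, Polynomial.eval_X, Polynomial.eval_C,
          Polynomial.coeff_zero_reverse, hP.leadingCoeff]
      have h5 : Cr R ((Polynomial.eval t' P.reverse : R) : F) 1 := by
        rw [cr_def, h4]
        have : (((Polynomial.eval t' P.reverse.divX * t' + 1 : R) : F)) - 1 =
            ((Polynomial.eval t' P.reverse.divX : R) : F) * t := by
          push_cast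
          ring
        rw [this]
        exact mul_mem_rad (Polynomial.eval t' P.reverse.divX).2 hrad
      have h6 := RUnit.val_eq_one hT.le (hR.runit_of_cr h5 (RUnit.one R))
      rw [h6] at h3
      exact lt_irrefl _ h3

end Normal

section P

variable {K₀ E F : Type*} [Field K₀] [Field E] [Field F] [Algebra K₀ E] [Algebra E F]
  [Algebra K₀ F] [IsScalarTower K₀ E F] {A₀ : ValuationSubring K₀} {p : ℕ} [Fact p.Prime]
  [FiniteDimensional E F] [IsGalois E F] {σ : F ≃ₐ[E] F}
  {R : Subring E} {ι : Type*} [Fintype ι] {V : ι → ValuationSubring E} {π : ι → E}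
  {W : ι → ZMod p → ValuationSubring F}

/-- P6 : `S / P_i = R / (π c)` -/
theorem RegPt.dense (hdeg : Module.finrank E F = p) (hσ : σ ≠ 1) (h : RegPt A₀ p R V π) (c : ι)
    (hW : Sheets p σ (V c) (W c)) {z : F} (hz : IsIntegral R z) (i : ZMod p) :
    ∃ r ∈ R, (W c i).valuation (z - algebraMap E F r) < 1 := by
  have hT := h.thr c
  have hle : ∀ r : R, algebraMap R F r ∈ W c i := fun r => (hW.lies i r).2 (hT.le r r.2)
  have hzW : z ∈ W c i := mem_Ow_of_isIntegral hle hz
  obtain ⟨e, he, hze⟩ := hW.dense hdeg hσ i hzW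
  have heW : algebraMap E F e ∈ W c i := (hW.lies i e).2 he
  obtain ⟨P, hPm, hP0⟩ := hz
  have key : (V c).valuation (Polynomial.aeval e P) < 1 := by
    rw [← hW.val_map_lt i, ← Polynomial.aeval_algebraMap_apply, Polynomial.aeval_def]
    let f : R →+* W c i := (algebraMap R F).codRestrict (W c i).toSubring hle
    have hcoe : ∀ x : W c i, ((Polynomial.eval₂ f x P : W c i) : F) =
        Polynomial.eval₂ (algebraMap R F) (x : F) P := fun x =>
      Polynomial.hom_eval₂ P f (W c i).subtype x
    have hres : IsLocalRing.residue (W c i) ⟨z, hzW⟩ =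
        IsLocalRing.residue (W c i) ⟨algebraMap E F e, heW⟩ := by
      rw [← sub_eq_zero, ← map_sub, IsLocalRing.residue_eq_zero_iff,
        ValuationSubring.valuation_lt_one_iff]
      exact hze
    have h0 : Polynomial.eval₂ f (⟨z, hzW⟩ : W c i) P = 0 := Subtype.ext ((hcoe _).trans hP0)
    have h1 := Polynomial.hom_eval₂ P f (IsLocalRing.residue (W c i)) ⟨z, hzW⟩
    rw [h0, map_zero, hres, ← Polynomial.hom_eval₂, eq_comm, IsLocalRing.residue_eq_zero_iff,
      ValuationSubring.valuation_lt_one_iff, hcoe] at h1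
    exact h1
  obtain ⟨r, hr, hlt⟩ := p6_exists_cg_of_monic h.pt hT he P hPm key
  refine ⟨r, hr, ?_⟩
  have h2 : (W c i).valuation (algebraMap E F (e - r)) < 1 := (hW.val_map_lt i _).2 hlt
  have h3 : z - algebraMap E F r = (z - algebraMap E F e) + algebraMap E F (e - r) := by
    rw [map_sub]
    ring
  rw [h3]
  exact (Valuation.map_add _ _ _).trans_lt (max_lt hze h2)

end P

end Fermat.Agent.S44.PL

end
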