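/-
S44 / X / PL, nodes P7, P7' (owner of the block helper223, proofs helper109):
`⋂ P_i = π c S` for the integral closure `S` of a regular point `R` in the cyclic cover.
-/
import Fermat.Agent.S44.X.PL.Defs
import Fermat.Agent.S44.X.PL.Ring
import Fermat.Agent.S44.X.PL.Sheets.Basic
import Fermat.Agent.S44.X.PL.Sheets.Integral
import Fermat.Agent.S18.Chart.Unif
import Fermat.Agent.S36.BP.Approx
import Fermat.Agent.KLB.Abs.Purity

set_option autoImplicit false

noncomputable section

namespace Fermat.Agent.S44.PL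

open Fermat.Agent.S18 Fermat.Agent.S18.Abs Fermat.Agent.S36.BP Fermat.Agent.KLB

section P

variable {K₀ E F : Type*} [Field K₀] [Field E] [Field F] [Algebra K₀ E] [Algebra E F]
  [Algebra K₀ F] [IsScalarTower K₀ E F] {A₀ : ValuationSubring K₀} {p : ℕ} [Fact p.Prime]
  [FiniteDimensional E F] [IsGalois E F] {σ : F ≃ₐ[E] F}
  {R : Subring E} {ι : Type*} [Fintype ι] {V : ι → ValuationSubring E} {π : ι → E}
  {W : ι → ZMod p → ValuationSubring F}

omit [Algebra K₀ F] [IsScalarTower K₀ E F] in
/-- one step: `S_{(π c)} ∩ (π c)⁻¹ S = S` -/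
private theorem iclDiv_step (hdeg : Module.finrank E F = p) (hσ : σ ≠ 1) (h : RegPt A₀ p R V π)
    (c : ι) (hW : Sheets p σ (V c) (W c)) {y : F}
    (hy : IsIntegral R (algebraMap E F (π c) * y)) (hv : ∀ i, y ∈ W c i) : IsIntegral R y := by
  have := h.isIntegrallyClosed
  have := h.isFractionRing
  exact sat (h.prime c) (h.isLocSub c) ((hW.isIntegral_iff hdeg hσ y).2 hv) hy

/-- P7' -/
theorem RegPt.icl_of_pow_mul (hdeg : Module.finrank E F = p) (hσ : σ ≠ 1) (h : RegPt A₀ p R V π)
    (c : ι) (hW : Sheets p σ (V c) (W c)) {z : F} (m : ℕ)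
    (hz : IsIntegral R (algebraMap E F (π c) ^ m * z)) (hv : ∀ i, z ∈ W c i) :
    IsIntegral R z := by
  induction m with
  | zero => simpa using hz
  | succ m ih =>
    apply ih
    apply iclDiv_step hdeg hσ h c hW
    · rw [← mul_assoc, ← pow_succ']
      exact hz
    · intro i
      exact (W c i).mul_mem _ _
        (pow_mem ((hW.lies i (π c)).2 ((h.thr c).le _ (h.mem c))) m) (hv i)

/-- P7 : `⋂ P_i = π c S` -/
theorem RegPt.icl_div (hdeg : Module.finrank E F = p) (hσ : σ ≠ 1) (h : RegPt A₀ p R V π) (c : ι)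
    (hW : Sheets p σ (V c) (W c)) {z : F} (hz : IsIntegral R z)
    (hv : ∀ i, (W c i).valuation z < 1) : IsIntegral R (z / algebraMap E F (π c)) := by
  have hp0 : (p : E) ≠ 0 := (h.unif c).ne_zero
  have hπ0 : π c ≠ 0 := by
    intro h0
    have h1 := h.val_self c
    rw [h0, map_zero, eq_comm, map_eq_zero] at h1
    exact hp0 h1
  have hπF : algebraMap E F (π c) ≠ 0 := by
    rw [Ne, map_eq_zero]
    exact hπ0
  apply iclDiv_step hdeg hσ h c hW
  · rw [mul_div_cancel₀ _ hπF]
    exact hz
  · intro i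
    have h1 : (V c).valuation (π c / (p : E)) = 1 := by
      rw [map_div₀, h.val_self c]
      exact div_self ((Valuation.ne_zero_iff _).2 hp0)
    have h2 := (hW.val_map_eq i (π c / (p : E))).2 h1
    rw [map_div₀, map_natCast, map_div₀] at h2
    have hpF : (W c i).valuation (p : F) ≠ 0 := (Valuation.ne_zero_iff _).2 (hW.unif i).ne_zero
    have h3 : (W c i).valuation (algebraMap E F (π c)) = (W c i).valuation (p : F) :=
      (div_eq_one_iff_eq hpF).1 h2
    rw [← ValuationSubring.valuation_le_one_iff, map_div₀, h3]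
    exact div_le_one_of_le₀ (approx_val_le_unif (hW.unif i) (hv i)) zero_le

end P

end Fermat.Agent.S44.PL

end
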