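/-
S44 / X / PL, nodes P8, P9 (owner helper296): maximal ideals of the integral closure and sheets.
CORE: the two statements with the nodes P6 (`RegPt.dense`) and P7 (`RegPt.icl_div`) as hypotheses.
-/
import Fermat.Agent.S44.X.PL.Defs
import Fermat.Agent.S18.Chart.Unif
import Fermat.Agent.S18.Chart.Mem
import Fermat.Agent.S36.BP.Rad

set_option autoImplicit false

noncomputable section

namespace Fermat.Agent.S44.PL

open Fermat.Agent.S18 Fermat.Agent.S36.BP Fermat.Agent.KLB

namespace MaxCore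

variable {K₀ E F : Type*} [Field K₀] [Field E] [Field F] [Algebra K₀ E] [Algebra E F]
  {A₀ : ValuationSubring K₀} {p : ℕ} {R : Subring E}

/-- the integral closure of `R` lies in every valuation subring of `F` containing `R`. -/
theorem icl_mem {W : ValuationSubring F} (hW : ∀ r ∈ R, algebraMap E F r ∈ W) {z : F}
    (hz : IsIntegral R z) : z ∈ W :=
  mem_Ow_of_isIntegral (fun r : R => hW r r.2) hz

/-- elements of `R` in the integral closure -/
def mkB (R : Subring E) (F : Type*) [Field F] [Algebra E F] (r : E) (hr : r ∈ R) : icl R F :=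
  ⟨algebraMap E F r, isIntegral_algebraMap (R := R) (x := ⟨r, hr⟩)⟩

theorem coe_mkB (r : E) (hr : r ∈ R) : ((mkB R F r hr : icl R F) : F) = algebraMap E F r := rfl

theorem rad_le_of (hR : IsPt A₀ R) (W : ValuationSubring F)
    (hdense : ∀ z : F, IsIntegral R z → ∃ r ∈ R, W.valuation (z - algebraMap E F r) < 1)
    (𝔫 : Ideal (icl R F)) [h𝔫 : 𝔫.IsMaximal]
    (hl : ∀ b : icl R F, W.valuation (b : F) < 1 → b ∈ 𝔫) (b : icl R F) {r : E}
    (hr : r ∈ rad R) (hb : (b : F) = algebraMap E F r) : b ∈ 𝔫 := by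
  by_contra hbn
  obtain ⟨b', n, hn, e⟩ := h𝔫.exists_inv hbn
  obtain ⟨r', hr', hv⟩ := hdense b' b'.2
  have hd : b' - mkB R F r' hr' ∈ 𝔫 := hl _ hv
  have hu : RUnit R (1 - r' * r) := by
    refine hR.runit_of_cr (b := 1) ?_ (RUnit.one R)
    unfold Cr
    have : 1 - r' * r - 1 = -(r' * r) := by ring
    rw [this]
    exact neg_mem_rad (mul_mem_rad hr' hr)
  have h1 : 1 - mkB R F r' hr' * b ∈ 𝔫 := by
    have : 1 - mkB R F r' hr' * b = (b' - mkB R F r' hr') * b + n := by rw [← e]; ring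
    rw [this]
    exact 𝔫.add_mem (𝔫.mul_mem_right _ hd) hn
  have h2 : (1 - mkB R F r' hr' * b) * mkB R F (1 - r' * r)⁻¹ hu.inv_mem = 1 := by
    apply Subtype.ext
    change (1 - algebraMap E F r' * (b : F)) * algebraMap E F (1 - r' * r)⁻¹ = 1
    rw [hb, ← map_mul, ← map_one (algebraMap E F), ← map_sub, ← map_mul, mul_inv_cancel₀ hu.1]
  apply h𝔫.ne_top
  rw [Ideal.eq_top_iff_one, ← h2]
  exact 𝔫.mul_mem_right _ h1

/-- the ideal of the integral closure cut out by a valuation subring containing it -/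
def cutIdeal (R : Subring E) (W : ValuationSubring F) (hW : ∀ r ∈ R, algebraMap E F r ∈ W) :
    Ideal (icl R F) where
  carrier := {b | W.valuation (b : F) < 1}
  add_mem' := fun {a b} ha hb => by
    change W.valuation ((a : F) + (b : F)) < 1
    exact Valuation.map_add_lt _ ha hb
  zero_mem' := by simp
  smul_mem' := fun a b hb => by
    change W.valuation ((a : F) * (b : F)) < 1
    rw [map_mul]
    exact lt_of_le_of_lt (mul_le_of_le_one_left'
      ((ValuationSubring.valuation_le_one_iff W _).2 (icl_mem hW a.2))) hb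

theorem mem_cutIdeal {W : ValuationSubring F} (hW : ∀ r ∈ R, algebraMap E F r ∈ W)
    (b : icl R F) : b ∈ cutIdeal R W hW ↔ W.valuation (b : F) < 1 := by
  change b ∈ {b : icl R F | W.valuation (b : F) < 1} ↔ _
  rfl

theorem val_unif_lt_one {W : ValuationSubring E} {ϖ : E} (h : IsUnif W ϖ) :
    W.valuation ϖ < 1 := by
  rcases lt_or_eq_of_le ((ValuationSubring.valuation_le_one_iff W _).2 h.mem) with h1 | h1
  · exact h1
  · exfalso
    apply h.inv_notMem
    rw [← ValuationSubring.valuation_le_one_iff, map_inv₀, h1, inv_one]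

theorem exists_max_of [Fact p.Prime] {ι : Type*} [Fintype ι] {V : ι → ValuationSubring E}
    {π : ι → E} {W : ι → ZMod p → ValuationSubring F} (h : RegPt A₀ p R V π)
    (hlies : ∀ c i (z : E), z ∈ V c → algebraMap E F z ∈ W c i)
    (hdense : ∀ c i (z : F), IsIntegral R z →
      ∃ r ∈ R, (W c i).valuation (z - algebraMap E F r) < 1)
    (hdiv : ∀ c (z : F), IsIntegral R z → (∀ i, (W c i).valuation z < 1) →
      IsIntegral R (z / algebraMap E F (π c)))
    (c₀ : ι) (i₀ : ZMod p) :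
    ∃ (𝔫 : Ideal (icl R F)) (l : ι → ZMod p), 𝔫.IsMaximal ∧ l c₀ = i₀ ∧ OnSheets R W 𝔫 l := by
  classical
  have hRW : ∀ c i, ∀ r ∈ R, algebraMap E F r ∈ W c i := fun c i r hr =>
    hlies c i r ((h.thr c).le r hr)
  have hne : cutIdeal R (W c₀ i₀) (hRW c₀ i₀) ≠ ⊤ := by
    rw [Ideal.ne_top_iff_one, mem_cutIdeal]
    simp
  obtain ⟨𝔫, h𝔫, hle⟩ := Ideal.exists_le_maximal _ hne
  have hl₀ : ∀ b : icl R F, (W c₀ i₀).valuation (b : F) < 1 → b ∈ 𝔫 := fun b hb =>
    hle ((mem_cutIdeal _ b).2 hb)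
  have hπrad : ∀ c, π c ∈ rad R := fun c =>
    mem_rad_of_val_lt (h.thr c).le (h.mem c) (by rw [h.val_self]; exact val_unif_lt_one (h.unif c))
  have hπ0 : ∀ c, π c ≠ 0 := by
    intro c h0
    have h1 := h.val_self c
    rw [h0, map_zero] at h1
    exact (h.unif c).ne_zero ((map_eq_zero _).1 h1.symm)
  have hπ𝔫 : ∀ c, mkB R F (π c) (h.mem c) ∈ 𝔫 := fun c =>
    rad_le_of h.pt (W c₀ i₀) (hdense c₀ i₀) 𝔫 hl₀ _ (hπrad c) rfl
  have key : ∀ c, ∃ i, ∀ b : icl R F, (W c i).valuation (b : F) < 1 → b ∈ 𝔫 := by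
    intro c
    by_contra hcon
    push Not at hcon
    choose b hb1 hb2 using hcon
    have hβ : ∀ j, (W c j).valuation ((∏ i, b i : icl R F) : F) < 1 := by
      intro j
      rw [← Finset.mul_prod_erase Finset.univ b (Finset.mem_univ j)]
      change (W c j).valuation ((b j : F) * ((∏ i ∈ Finset.univ.erase j, b i : icl R F) : F)) < 1
      rw [map_mul]
      exact lt_of_le_of_lt (mul_le_of_le_one_right'
        ((ValuationSubring.valuation_le_one_iff _ _).2 (icl_mem (hRW c j) (Subtype.property _))))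
        (hb1 j)
    have hq := hdiv c _ (∏ i, b i : icl R F).2 hβ
    have he : (∏ i, b i : icl R F) = mkB R F (π c) (h.mem c) * ⟨_, hq⟩ := by
      apply Subtype.ext
      change _ = algebraMap E F (π c) * (((∏ i, b i : icl R F) : F) / algebraMap E F (π c))
      rw [mul_div_cancel₀]
      rw [Ne, map_eq_zero]
      exact hπ0 c
    have hmem : (∏ i, b i : icl R F) ∈ 𝔫 := by
      rw [he]
      exact 𝔫.mul_mem_right _ (hπ𝔫 c)
    obtain ⟨i, -, hi⟩ := (h𝔫.isPrime.prod_mem_iff).1 hmem
    exact hb2 i hi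
  choose l hl using key
  refine ⟨𝔫, Function.update l c₀ i₀, h𝔫, Function.update_self _ _ _, ?_⟩
  intro c b hb
  by_cases hc : c = c₀
  · subst hc
    rw [Function.update_self] at hb
    exact hl₀ b hb
  · rw [Function.update_of_ne hc] at hb
    exact hl c b hb

end MaxCore

end Fermat.Agent.S44.PL

end
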