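/-
S44 / X / PL, nodes P8, P9 (owner helper296): maximal ideals of the integral closure and sheets.
-/
import Fermat.Agent.S44.X.PL.Pur.MaxCore
import Fermat.Agent.S44.X.PL.Pur.Dense
import Fermat.Agent.S44.X.PL.Pur.IclDiv

set_option autoImplicit false

noncomputable section

namespace Fermat.Agent.S44.PL

open Fermat.Agent.S18 Fermat.Agent.S18.Abs Fermat.Agent.S36.BP Fermat.Agent.KLB

section P

variable {K₀ E F : Type*} [Field K₀] [Field E] [Field F] [Algebra K₀ E] [Algebra E F]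
  [Algebra K₀ F] [IsScalarTower K₀ E F] {A₀ : ValuationSubring K₀} {p : ℕ} [Fact p.Prime]
  [FiniteDimensional E F] [IsGalois E F] {σ : F ≃ₐ[E] F}
  {R : Subring E} {ι : Type*} [Fintype ι] {V : ι → ValuationSubring E} {π : ι → E}
  {W : ι → ZMod p → ValuationSubring F}

/-- P8 -/
theorem RegPt.rad_le (hdeg : Module.finrank E F = p) (hσ : σ ≠ 1) (h : RegPt A₀ p R V π)
    (c : ι) (hW : Sheets p σ (V c) (W c)) (𝔫 : Ideal (icl R F)) [𝔫.IsMaximal] (i : ZMod p)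
    (hl : ∀ b : icl R F, (W c i).valuation (b : F) < 1 → b ∈ 𝔫) (b : icl R F) {r : E}
    (hr : r ∈ rad R) (hb : (b : F) = algebraMap E F r) : b ∈ 𝔫 :=
  MaxCore.rad_le_of h.pt (W c i) (fun _ hz => h.dense hdeg hσ c hW hz i) 𝔫 hl b hr hb

/-- P9 -/
theorem RegPt.exists_max (hdeg : Module.finrank E F = p) (hσ : σ ≠ 1) (h : RegPt A₀ p R V π)
    (hW : ∀ c, Sheets p σ (V c) (W c)) (c₀ : ι) (i₀ : ZMod p) :
    ∃ (𝔫 : Ideal (icl R F)) (l : ι → ZMod p), 𝔫.IsMaximal ∧ l c₀ = i₀ ∧ OnSheets R W 𝔫 l :=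
  MaxCore.exists_max_of h (fun c i z hz => ((hW c).lies i z).2 hz)
    (fun c i _ hz => h.dense hdeg hσ c (hW c) hz i)
    (fun c _ hz hv => h.icl_div hdeg hσ c (hW c) hz hv) c₀ i₀

end P

end Fermat.Agent.S44.PL

end
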