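/-
S44 / X / PL, node P11 (`Pur/LiftDense.lean`): the local ring of the cover at a maximal ideal of the
integral closure has the same residues on its sheet as `R`.
-/
import Fermat.Agent.S44.X.PL.Defs
import Fermat.Agent.S44.X.PL.Sheets.Basic
import Fermat.Agent.S44.X.PL.Pur.Dense
import Fermat.Agent.S44.X.PL.Pur.Max
import Fermat.Agent.S18.Chart.Const
import Fermat.Agent.S36.BP.Rad
import Fermat.Agent.S36.BP.Loc.Basic

set_option autoImplicit false

noncomputable section

namespace Fermat.Agent.S44.PL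

open Fermat.Agent.S18 Fermat.Agent.S36.BP Fermat.Agent.KLB

section P

variable {K₀ E F : Type*} [Field K₀] [Field E] [Field F] [Algebra K₀ E] [Algebra E F]
  [Algebra K₀ F] [IsScalarTower K₀ E F] {A₀ : ValuationSubring K₀} {p : ℕ} [Fact p.Prime]
  [FiniteDimensional E F] [IsGalois E F] {σ : F ≃ₐ[E] F}
  {R : Subring E} {ι : Type*} [Fintype ι] {V : ι → ValuationSubring E} {π : ι → E}
  {W : ι → ZMod p → ValuationSubring F}

omit [Algebra K₀ F] [IsScalarTower K₀ E F] [Fact p.Prime] [FiniteDimensional E F]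
  [IsGalois E F] in
/-- the integral closure of `R` lies in every sheet over a component through `R` -/
theorem LiftDense.icl_le (h : RegPt A₀ p R V π) (c : ι) (hW : Sheets p σ (V c) (W c))
    (i : ZMod p) : ∀ b ∈ icl R F, b ∈ W c i := by
  intro b hb
  have hb' : IsIntegral R b := hb
  have h1 : IsIntegral (W c i) b :=
    isIntegral_of_forall_exists_algebraMap
      (fun r => ⟨⟨algebraMap E F r, (hW.lies i _).2 ((h.thr c).le _ r.2)⟩, rfl⟩) hb'
  obtain ⟨y, rfl⟩ := (IsIntegrallyClosed.isIntegral_iff (R := W c i) (K := F)).mp h1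
  exact y.2

omit [Algebra K₀ E] [Algebra K₀ F] [IsScalarTower K₀ E F] [Fact p.Prime] [FiniteDimensional E F]
  [IsGalois E F] [Fintype ι] in
/-- the image of an element of `R` in the integral closure -/
theorem LiftDense.map_mem {r : E} (hr : r ∈ R) : algebraMap E F r ∈ icl R F :=
  isIntegral_algebraMap (R := R) (x := (⟨r, hr⟩ : R))

/-- P11 -/
theorem RegPt.lift_dense (hdeg : Module.finrank E F = p) (hσ : σ ≠ 1) (h : RegPt A₀ p R V π)
    (hW : ∀ c, Sheets p σ (V c) (W c)) (𝔫 : Ideal (icl R F)) [𝔫.IsMaximal] (l : ι → ZMod p)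
    (hl : OnSheets R W 𝔫 l) (c : ι) {z : F} (hz : z ∈ locSub (icl R F) 𝔫) :
    ∃ r ∈ R, (W c (l c)).valuation (z - algebraMap E F r) < 1 ∧
      (RUnit (locSub (icl R F) 𝔫) z ↔ RUnit R r) := by
  have hB := LiftDense.icl_le h c (hW c) (l c)
  -- elements outside `𝔫` are units on the sheet
  have hunit : ∀ s : icl R F, s ∉ 𝔫 → (W c (l c)).valuation (s : F) = 1 := by
    intro s hs
    refine le_antisymm (mem_iff_val_le.1 (hB _ s.2)) (not_lt.1 fun hlt => hs (hl c s hlt))
  -- the local ring lies in the sheet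
  have hle : ∀ y ∈ locSub (icl R F) 𝔫, y ∈ W c (l c) := by
    rintro y ⟨a, s, hs, e⟩
    rw [mem_iff_val_le]
    have h1 := congrArg (W c (l c)).valuation e
    rw [map_mul, hunit s hs, mul_one] at h1
    rw [h1]
    exact mem_iff_val_le.1 (hB _ a.2)
  -- nonunits of `R` are nonunits of the local ring
  have hrad : ∀ r ∈ rad R, algebraMap E F r ∈ rad (locSub (icl R F) 𝔫) := by
    intro r hr
    exact coe_mem_rad_locSub (a := ⟨algebraMap E F r, LiftDense.map_mem hr.1⟩)
      (h.rad_le hdeg hσ c (hW c) 𝔫 (l c) (hl c) _ hr rfl)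
  -- units of `R` are units of the local ring
  have hun : ∀ r, RUnit R r → RUnit (locSub (icl R F) 𝔫) (algebraMap E F r) := by
    rintro r ⟨h0, h1, h2⟩
    refine ⟨(map_ne_zero _).2 h0, le_locSub (LiftDense.map_mem h1), ?_⟩
    rw [← map_inv₀]
    exact le_locSub (LiftDense.map_mem h2)
  obtain ⟨b, s, hs, e⟩ := hz
  obtain ⟨rb, hrb, hb⟩ := h.dense hdeg hσ c (hW c) (z := (b : F)) b.2 (l c)
  obtain ⟨rs, hrs, hs'⟩ := h.dense hdeg hσ c (hW c) (z := (s : F)) s.2 (l c)
  have hs0 : (s : F) ≠ 0 := coe_ne_zero_of_notMem hs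
  have hrsu : RUnit R rs := by
    rcases runit_or_mem_rad hrs with hu | hr
    · exact hu
    · exfalso
      apply hs
      have h1 : (⟨algebraMap E F rs, LiftDense.map_mem hrs⟩ : icl R F) ∈ 𝔫 :=
        h.rad_le hdeg hσ c (hW c) 𝔫 (l c) (hl c) _ hr rfl
      have h2 : s - (⟨algebraMap E F rs, LiftDense.map_mem hrs⟩ : icl R F) ∈ 𝔫 := hl c _ hs'
      have h3 := 𝔫.add_mem h2 h1
      rwa [sub_add_cancel] at h3
  have hz' : z = (b : F) / (s : F) := by
    rw [← e]
    field_simp
  have hcg : (W c (l c)).valuation (z - algebraMap E F (rb / rs)) < 1 := by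
    have h1 : Cg (W c (l c)) (b : F) (algebraMap E F rb) := hb
    have h2 : Cg (W c (l c)) (s : F) (algebraMap E F rs) := hs'
    have h3 : (W c (l c)).valuation (algebraMap E F rb) ≤ 1 :=
      mem_iff_val_le.1 (hB _ (LiftDense.map_mem hrb))
    have h4 : (W c (l c)).valuation (algebraMap E F rs) = 1 := h2.symm.val_eq_one (hunit s hs)
    have h5 := h1.div h2 h3 h4
    rw [hz', map_div₀]
    exact h5
  have hzmem : z ∈ locSub (icl R F) 𝔫 := ⟨b, s, hs, e⟩
  have hr : rb / rs ∈ R := by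
    rw [div_eq_mul_inv]
    exact R.mul_mem hrb hrsu.inv_mem
  have hdiff : z - algebraMap E F (rb / rs) ∈ rad (locSub (icl R F) 𝔫) :=
    mem_rad_of_val_lt hle (Subring.sub_mem _ hzmem (le_locSub (LiftDense.map_mem hr))) hcg
  refine ⟨rb / rs, hr, hcg, ?_, ?_⟩
  · intro hu
    rcases runit_or_mem_rad hr with hu' | hr'
    · exact hu'
    · exfalso
      have h1 := add_mem_rad_locSub hdiff (hrad _ hr')
      rw [sub_add_cancel] at h1
      exact h1.2 hu
  · intro hu
    rcases runit_or_mem_rad hzmem with hu' | hr'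
    · exact hu'
    · exfalso
      have h1 := add_mem_rad_locSub hr' (neg_mem_rad hdiff)
      rw [neg_sub, add_sub_cancel] at h1
      exact h1.2 (hun _ hu)

end P

end Fermat.Agent.S44.PL

end
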