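/-
S44 / X / PL, node P10 (owner of the block helper223; proof helper44):
an element of the integral closure, unit at `𝔫`, vanishing on the other sheets over `V c`.
-/
import Fermat.Agent.S44.X.PL.Pur.Dense

set_option autoImplicit false

noncomputable section

namespace Fermat.Agent.S44.PL

open Fermat.Agent.S18 Fermat.Agent.S36.BP Fermat.Agent.KLB

section P

variable {K₀ E F : Type*} [Field K₀] [Field E] [Field F] [Algebra K₀ E] [Algebra E F]
  [Algebra K₀ F] [IsScalarTower K₀ E F] {A₀ : ValuationSubring K₀} {p : ℕ} [Fact p.Prime]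
  [FiniteDimensional E F] [IsGalois E F] {σ : F ≃ₐ[E] F}
  {R : Subring E} {ι : Type*} [Fintype ι] {V : ι → ValuationSubring E} {π : ι → E}
  {W : ι → ZMod p → ValuationSubring F}

omit [FiniteDimensional E F] [IsGalois E F] in
/-- an element integral over `R` lies in every valuation ring of `F` containing the image of `R` -/
theorem Cut.mem_of_isIntegral {R : Subring E} (A : ValuationSubring F)
    (hR : ∀ r ∈ R, algebraMap E F r ∈ A) {z : F} (hz : IsIntegral R z) : z ∈ A := by
  let φ : R →+* A := ((algebraMap E F).comp R.subtype).codRestrict A fun r => hR r r.2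
  have h1 : IsIntegral A z := IsIntegral.map_of_comp_eq φ (RingHom.id F) (by ext r; rfl) hz
  obtain ⟨y, hy⟩ := IsIntegrallyClosed.isIntegral_iff.mp h1
  exact hy ▸ y.2

/-- P10 : the idempotent-like element: a unit at `𝔫`, vanishing on the other sheets over `V c` -/
theorem RegPt.exists_cut (hdeg : Module.finrank E F = p) (hσ : σ ≠ 1) (h : RegPt A₀ p R V π)
    (hW : ∀ c, Sheets p σ (V c) (W c)) {w : F} (hw : IsIntegral R w)
    (hsep : ∀ k : ℕ, ¬ p ∣ k → (σ ^ k) w - w ≠ 0 ∧ IsIntegral R ((σ ^ k) w - w)⁻¹)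
    (𝔫 : Ideal (icl R F)) [𝔫.IsMaximal] (l : ι → ZMod p) (hl : OnSheets R W 𝔫 l) (c : ι) :
    ∃ e : icl R F, e ∉ 𝔫 ∧ ∀ i, i ≠ l c → (W c i).valuation (e : F) < 1 := by
  classical
  have hmemW : ∀ (i : ZMod p) (b : icl R F), (b : F) ∈ W c i := fun i b =>
    Cut.mem_of_isIntegral (W c i) (fun r hr => ((hW c).lies i r).2 ((h.thr c).le r hr)) b.2
  have hex : ∀ i : ZMod p, ∃ r ∈ R, (W c i).valuation (w - algebraMap E F r) < 1 := fun i =>
    h.dense hdeg hσ c (hW c) hw i
  choose r hrR hr using hex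
  have hrI : ∀ i, IsIntegral R (algebraMap E F (r i)) := fun i =>
    isIntegral_algebraMap (R := R) (x := (⟨r i, hrR i⟩ : R))
  let f : ZMod p → icl R F := fun i => ⟨w - algebraMap E F (r i), hw.sub (hrI i)⟩
  have hf : ∀ i, i ≠ l c → f i ∉ 𝔫 := by
    intro i hi hmem
    have hk0 : (i - l c).val ≠ 0 := by
      rw [Ne, ZMod.val_eq_zero, sub_eq_zero]
      exact hi
    have hklt : (i - l c).val < p := ZMod.val_lt _
    have hkp : ¬ p ∣ (i - l c).val := fun hd => hk0 (Nat.eq_zero_of_dvd_of_lt hd hklt)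
    have hki : l c + (((i - l c).val : ℕ) : ZMod p) = i := by
      rw [ZMod.natCast_zmod_val]
      ring
    have h1 : (W c (l c)).valuation ((σ ^ (i - l c).val) (w - algebraMap E F (r i))) < 1 := by
      rw [(hW c).val_pow_lt, hki]
      exact hr i
    have h2 : (σ ^ (i - l c).val) (w - algebraMap E F (r i)) =
        (σ ^ (i - l c).val) w - algebraMap E F (r i) := by
      rw [map_sub, AlgEquiv.commutes]
    have hσw : IsIntegral R ((σ ^ (i - l c).val) w) := hw.map (σ ^ (i - l c).val)
    let b1 : icl R F := ⟨(σ ^ (i - l c).val) w - algebraMap E F (r i), hσw.sub (hrI i)⟩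
    have hb1 : b1 ∈ 𝔫 := hl c b1 (by
      change (W c (l c)).valuation ((σ ^ (i - l c).val) w - algebraMap E F (r i)) < 1
      rw [← h2]
      exact h1)
    obtain ⟨hne, hinv⟩ := hsep _ hkp
    let d : icl R F := ⟨(σ ^ (i - l c).val) w - w, hσw.sub hw⟩
    let d' : icl R F := ⟨((σ ^ (i - l c).val) w - w)⁻¹, hinv⟩
    have hd : d ∈ 𝔫 := by
      have : d = b1 - f i := by
        apply Subtype.ext
        change (σ ^ (i - l c).val) w - w =
          ((σ ^ (i - l c).val) w - algebraMap E F (r i)) - (w - algebraMap E F (r i))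
        ring
      rw [this]
      exact 𝔫.sub_mem hb1 hmem
    have hone : (1 : icl R F) ∈ 𝔫 := by
      have : (1 : icl R F) = d' * d := by
        apply Subtype.ext
        change (1 : F) = ((σ ^ (i - l c).val) w - w)⁻¹ * ((σ ^ (i - l c).val) w - w)
        rw [inv_mul_cancel₀ hne]
      rw [this]
      exact 𝔫.mul_mem_left _ hd
    exact (Ideal.IsPrime.ne_top inferInstance) ((Ideal.eq_top_iff_one 𝔫).2 hone)
  refine ⟨∏ i ∈ Finset.univ.erase (l c), f i, ?_, ?_⟩
  · intro hmem
    rw [Ideal.IsPrime.prod_mem_iff] at hmem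
    obtain ⟨i, hi, hmem⟩ := hmem
    exact hf i (Finset.ne_of_mem_erase hi) hmem
  · intro i hi
    have hi' : i ∈ Finset.univ.erase (l c) := Finset.mem_erase.2 ⟨hi, Finset.mem_univ i⟩
    rw [← Finset.mul_prod_erase _ _ hi']
    have h3 : (((f i * ∏ j ∈ (Finset.univ.erase (l c)).erase i, f j : icl R F)) : F) =
        (f i : F) * ((∏ j ∈ (Finset.univ.erase (l c)).erase i, f j : icl R F) : F) := rfl
    rw [h3, map_mul]
    have h4 : (W c i).valuation ((∏ j ∈ (Finset.univ.erase (l c)).erase i, f j : icl R F) : F) ≤ 1 :=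
      ((W c i).valuation_le_one_iff _).2 (hmemW i _)
    exact lt_of_le_of_lt (mul_le_of_le_one_right' h4) (hr i)

end P

end Fermat.Agent.S44.PL

end
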