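/-
S44 / X / PL, node P14 (helper157): the core of `RegPt.lift_princ`, with the conclusions of
P7 (`RegPt.icl_div`) and P10 (`RegPt.exists_cut`) as hypotheses.
-/
import Fermat.Agent.S44.X.PL.Defs
import Fermat.Agent.S36.BP.Loc.Basic

set_option autoImplicit false

noncomputable section

namespace Fermat.Agent.S44.PL

open Fermat.Agent.S18 Fermat.Agent.S36.BP Fermat.Agent.KLB

/-- an element integral over `R` lies in every valuation ring containing the image of `R` -/
theorem mem_valuationSubring_of_isIntegral_of_map_le {E F : Type*} [Field E] [Field F]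
    [Algebra E F] {R : Subring E} {W : ValuationSubring F}
    (hle : ∀ r ∈ R, algebraMap E F r ∈ W) {z : F} (hz : IsIntegral R z) : z ∈ W := by
  obtain ⟨P, hP, hPz⟩ := hz
  let φ : R →+* W := ((algebraMap E F).comp R.subtype).codRestrict W.toSubring
    (fun r => hle r r.2)
  have h1 : IsIntegral W z := ⟨P.map φ, hP.map _, by rw [Polynomial.eval₂_map]; exact hPz⟩
  obtain ⟨y, rfl⟩ := IsIntegrallyClosed.isIntegral_iff.mp h1
  exact y.2

variable {K₀ E F : Type*} [Field K₀] [Field E] [Field F] [Algebra K₀ E] [Algebra E F]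
  {A₀ : ValuationSubring K₀} {p : ℕ} {σ : F ≃ₐ[E] F}
  {R : Subring E} {ι : Type*} [Fintype ι] {V : ι → ValuationSubring E} {π : ι → E}
  {W : ι → ZMod p → ValuationSubring F}

/-- the integral closure of a regular point lies in all the sheets -/
theorem RegPt.val_icl_le_one (h : RegPt A₀ p R V π) (hW : ∀ c, Sheets p σ (V c) (W c)) (c : ι)
    (i : ZMod p) {z : F} (hz : IsIntegral R z) : (W c i).valuation z ≤ 1 :=
  (ValuationSubring.valuation_le_one_iff _ _).mpr
    (mem_valuationSubring_of_isIntegral_of_map_le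
      (fun r hr => ((hW c).lies i r).mpr ((h.thr c).le r hr)) hz)

/-- P14, core -/
theorem RegPt.lift_princ_core (h : RegPt A₀ p R V π) (hW : ∀ c, Sheets p σ (V c) (W c))
    (𝔫 : Ideal (icl R F)) [𝔫.IsMaximal] (l : ι → ZMod p) (hl : OnSheets R W 𝔫 l) (c : ι)
    (hcut : ∃ e : icl R F, e ∉ 𝔫 ∧ ∀ i, i ≠ l c → (W c i).valuation (e : F) < 1)
    (hdiv : ∀ z : F, IsIntegral R z → (∀ i, (W c i).valuation z < 1) →
      IsIntegral R (z / algebraMap E F (π c)))
    {r : F} (hr : r ∈ locSub (icl R F) 𝔫) (hv : (W c (l c)).valuation r < 1) :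
    r / algebraMap E F (π c) ∈ locSub (icl R F) 𝔫 := by
  obtain ⟨b, s, hs, hrs⟩ := mem_locSub.mp hr
  have hle : ∀ (z : icl R F) (i : ZMod p), (W c i).valuation (z : F) ≤ 1 := fun z i =>
    h.val_icl_le_one hW c i z.2
  have hs1 : (W c (l c)).valuation (s : F) = 1 := by
    rcases (hle s (l c)).lt_or_eq with h1 | h1
    · exact absurd (hl c s h1) hs
    · exact h1
  have hb : (W c (l c)).valuation (b : F) < 1 := by
    rw [← hrs, map_mul, hs1, mul_one]
    exact hv
  obtain ⟨e, he, hei⟩ := hcut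
  have heb : ∀ i, (W c i).valuation ((e * b : icl R F) : F) < 1 := by
    intro i
    rw [Subring.coe_mul, map_mul]
    by_cases hi : i = l c
    · subst hi
      exact lt_of_le_of_lt (mul_le_of_le_one_left' (hle e _)) hb
    · exact lt_of_le_of_lt (mul_le_of_le_one_right' (hle b i)) (hei i hi)
  have hd := hdiv _ (e * b).2 heb
  refine mem_locSub.mpr ⟨⟨_, hd⟩, e * s,
    fun hes => ((inferInstance : 𝔫.IsPrime).mem_or_mem hes).elim he hs, ?_⟩
  show r / algebraMap E F (π c) * ((e : F) * (s : F)) = (e : F) * (b : F) / algebraMap E F (π c)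
  rw [← hrs]
  ring

end Fermat.Agent.S44.PL

end
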