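/-
S44 / X / PL, node P14 (helper157): `RegPt.lift_princ`: the vertical prime of the cover is
generated by `π c`.
-/
import Fermat.Agent.S44.X.PL.Pur.LiftPrincCore
import Fermat.Agent.S44.X.PL.Pur.IclDiv
import Fermat.Agent.S44.X.PL.Pur.Cut

set_option autoImplicit false

noncomputable section

namespace Fermat.Agent.S44.PL

open Fermat.Agent.S18 Fermat.Agent.S36.BP Fermat.Agent.KLB

variable {K₀ E F : Type*} [Field K₀] [Field E] [Field F] [Algebra K₀ E] [Algebra E F]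
  [Algebra K₀ F] [IsScalarTower K₀ E F] {A₀ : ValuationSubring K₀} {p : ℕ} [Fact p.Prime]
  [FiniteDimensional E F] [IsGalois E F] {σ : F ≃ₐ[E] F}
  {R : Subring E} {ι : Type*} [Fintype ι] {V : ι → ValuationSubring E} {π : ι → E}
  {W : ι → ZMod p → ValuationSubring F}

/-- P14 -/
theorem RegPt.lift_princ (hdeg : Module.finrank E F = p) (hσ : σ ≠ 1) (h : RegPt A₀ p R V π)
    (hW : ∀ c, Sheets p σ (V c) (W c)) {w : F} (hw : IsIntegral R w)
    (hsep : ∀ k : ℕ, ¬ p ∣ k → (σ ^ k) w - w ≠ 0 ∧ IsIntegral R ((σ ^ k) w - w)⁻¹)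
    (𝔫 : Ideal (icl R F)) [𝔫.IsMaximal] (l : ι → ZMod p) (hl : OnSheets R W 𝔫 l) (c : ι)
    {r : F} (hr : r ∈ locSub (icl R F) 𝔫) (hv : (W c (l c)).valuation r < 1) :
    r / algebraMap E F (π c) ∈ locSub (icl R F) 𝔫 :=
  h.lift_princ_core hW 𝔫 l hl c (h.exists_cut hdeg hσ hW hw hsep 𝔫 l hl c)
    (fun _ hz hv' => h.icl_div hdeg hσ c (hW c) hz hv') hr hv

end Fermat.Agent.S44.PL

end
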