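/-
S44 / X / PL, node P13 (task 2175, helper181): the core of `RegPt.lift_through`, with the nodes
P7', P8, P10, P11 as explicit hypotheses (for one component `c` and one sheet `i₀`).
-/
import Fermat.Agent.S44.X.PL.Defs
import Fermat.Agent.S44.X.PL.Sheets.Basic
import Fermat.Agent.S44.X.PL.Ring
import Fermat.Agent.S18.Chart.Unif
import Fermat.Agent.S18.Chart.Const
import Fermat.Agent.S36.BP.Rad
import Fermat.Agent.S36.BP.Approx
import Fermat.Agent.S36.BP.LocQep
import Fermat.Agent.S36.BP.Loc.Basic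

set_option autoImplicit false

noncomputable section

namespace Fermat.Agent.S44.PL

open Fermat.Agent.S18 Fermat.Agent.S36.BP Fermat.Agent.KLB


section LT1

variable {E F : Type*} [Field E] [Field F] [Algebra E F]

/-- an element integral over `R` lies in every valuation subring of `F` containing the image of
`R`. -/
theorem liftThrough_mem_of_isIntegral {R : Subring E} {W : ValuationSubring F}
    (hR : ∀ r ∈ R, algebraMap E F r ∈ W) {z : F} (hz : IsIntegral R z) : z ∈ W := by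
  have h1 : IsIntegral W z :=
    isIntegral_of_forall_exists_algebraMap (fun r : R => ⟨⟨algebraMap E F r, hR r r.2⟩, rfl⟩) hz
  obtain ⟨y, hy⟩ := (IsIntegrallyClosed.isIntegral_iff (R := W) (K := F)).mp h1
  rw [← hy]
  exact y.2

end LT1

section LT2

variable {K₀ E : Type*} [Field K₀] [Field E] [Algebra K₀ E] {A₀ : ValuationSubring K₀}
  {R : Subring E} {p : ℕ} {ι : Type*} [Fintype ι] {V : ι → ValuationSubring E} {π : ι → E}

/-- dividing out the exact power of `π c`. -/
theorem RegPt.liftThrough_div_pow (h : RegPt A₀ p R V π) (c : ι) (n : ℕ) :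
    ∀ ρ ∈ R, (V c).valuation ρ = (V c).valuation (p : E) ^ n →
      ρ / π c ^ n ∈ R ∧ (V c).valuation (ρ / π c ^ n) = 1 := by
  have hp1 : (V c).valuation (p : E) < 1 := approx_val_unif_lt_one (h.unif c)
  have hp0 : (V c).valuation (p : E) ≠ 0 := (Valuation.ne_zero_iff _).mpr (h.unif c).ne_zero
  induction n with
  | zero =>
    intro ρ hρ hv
    simpa using ⟨hρ, hv⟩
  | succ n ih =>
    intro ρ hρ hv
    have hlt : (V c).valuation ρ < 1 := by
      rw [hv]
      exact pow_lt_one₀ zero_le hp1 (Nat.succ_ne_zero n)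
    have h1 : ρ / π c ∈ R := h.princ c ρ hρ hlt
    have h2 : (V c).valuation (ρ / π c) = (V c).valuation (p : E) ^ n := by
      rw [map_div₀, hv, h.val_self c, pow_succ, mul_div_assoc, div_self hp0, mul_one]
    have h3 := ih _ h1 h2
    have e : ρ / π c ^ (n + 1) = ρ / π c / π c ^ n := by
      rw [pow_succ', div_div]
    rw [e]
    exact h3

theorem RegPt.liftThrough_exists_div_pow (h : RegPt A₀ p R V π) (c : ι) {ρ : E} (hρ : ρ ∈ R)
    (hρ0 : ρ ≠ 0) : ∃ n : ℕ, ρ / π c ^ n ∈ R ∧ (V c).valuation (ρ / π c ^ n) = 1 := by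
  obtain ⟨n, h1, h2⟩ := (h.unif c).exists_unit_div_pow ((h.thr c).le ρ hρ) hρ0
  refine ⟨n, h.liftThrough_div_pow c n ρ hρ ?_⟩
  have hp0 : (V c).valuation (p : E) ≠ 0 := (Valuation.ne_zero_iff _).mpr (h.unif c).ne_zero
  have h3 : (V c).valuation (ρ / (p : E) ^ n) = 1 :=
    val_eq_one_iff.mpr ⟨div_ne_zero hρ0 (pow_ne_zero _ (h.unif c).ne_zero), h1, h2⟩
  rw [map_div₀, map_pow, div_eq_one_iff_eq (pow_ne_zero _ hp0)] at h3
  exact h3

end LT2

section P

variable {K₀ E F : Type*} [Field K₀] [Field E] [Field F] [Algebra K₀ E] [Algebra E F]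
  {A₀ : ValuationSubring K₀} {p : ℕ} [Fact p.Prime]
  [FiniteDimensional E F] {σ : F ≃ₐ[E] F}
  {R : Subring E} {ι : Type*} [Fintype ι] {V : ι → ValuationSubring E} {π : ι → E}
  {W : ZMod p → ValuationSubring F}

/-- P13, core -/
theorem RegPt.lift_through_core (h : RegPt A₀ p R V π) (c : ι) (hW : Sheets p σ (V c) W)
    (𝔫 : Ideal (icl R F)) [𝔫.IsMaximal] (i₀ : ZMod p)
    (hl : ∀ b : icl R F, (W i₀).valuation (b : F) < 1 → b ∈ 𝔫)
    (hP7 : ∀ (z : F) (m : ℕ), IsIntegral R (algebraMap E F (π c) ^ m * z) → (∀ i, z ∈ W i) →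
      IsIntegral R z)
    (hP8 : ∀ (b : icl R F) (r : E), r ∈ rad R → (b : F) = algebraMap E F r → b ∈ 𝔫)
    (hP10 : ∃ e : icl R F, e ∉ 𝔫 ∧ ∀ i, i ≠ i₀ → (W i).valuation (e : F) < 1)
    (hP11 : ∀ z ∈ locSub (icl R F) 𝔫, ∃ r ∈ R, (W i₀).valuation (z - algebraMap E F r) < 1 ∧
      (RUnit (locSub (icl R F) 𝔫) z ↔ RUnit R r)) :
    Through (locSub (icl R F) 𝔫) (W i₀) := by
  -- the image of `R` lies in all the sheets
  have hRW : ∀ i, ∀ r ∈ R, algebraMap E F r ∈ W i := fun i r hr =>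
    (hW.lies i r).mpr ((h.thr c).le r hr)
  -- `B ⊆ W i`
  have hBW : ∀ i, ∀ b : F, IsIntegral R b → b ∈ W i := fun i b hb =>
    liftThrough_mem_of_isIntegral (hRW i) hb
  -- the image of `R` lies in `B`
  have hRB : ∀ r ∈ R, IsIntegral R (algebraMap E F r) := fun r hr =>
    isIntegral_algebraMap (R := R) (x := (⟨r, hr⟩ : R))
  -- elements of `B` outside `𝔫` are units of the sheet
  have hunit : ∀ s : icl R F, s ∉ 𝔫 → (W i₀).valuation (s : F) = 1 := by
    intro s hs
    refine le_antisymm ((ValuationSubring.valuation_le_one_iff _ _).mpr (hBW _ _ s.2)) ?_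
    rw [← not_lt]
    exact fun hlt => hs (hl s hlt)
  refine ⟨?_, ?_, ?_⟩
  · -- le
    rintro z ⟨b, s, hs, e⟩
    have hs1 := hunit s hs
    have hs0 : (s : F) ≠ 0 := ne_zero_of_val_eq_one hs1
    rw [← ValuationSubring.valuation_le_one_iff]
    have hz : z = (b : F) / (s : F) := by
      rw [← e, mul_div_assoc, div_self hs0, mul_one]
    rw [hz, map_div₀, hs1, div_one]
    exact (ValuationSubring.valuation_le_one_iff _ _).mpr (hBW _ _ b.2)
  · -- loc
    intro z hz
    have := h.isFractionRing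
    have halg : IsAlgebraic R z :=
      (IsFractionRing.isAlgebraic_iff R E F).mpr (Algebra.IsAlgebraic.isAlgebraic z)
    obtain ⟨ρ, hρ0, hρ⟩ := halg.exists_integral_multiple
    have hρ0' : (ρ : E) ≠ 0 := fun h0 => hρ0 (Subtype.ext h0)
    obtain ⟨m, hm1, hm2⟩ := h.liftThrough_exists_div_pow c ρ.2 hρ0'
    set ρ' : E := (ρ : E) / π c ^ m with hρ'
    have hπ0 : π c ≠ 0 := by
      intro h0
      have := h.val_self c
      rw [h0, map_zero] at this
      exact (Valuation.ne_zero_iff _).mpr (h.unif c).ne_zero this.symm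
    obtain ⟨e, he, hcut⟩ := hP10
    -- the exponent `M`
    have hex : ∀ i : ZMod p, ∃ k : ℕ, i ≠ i₀ → (e : F) ^ k * (algebraMap E F ρ' * z) ∈ W i := by
      intro i
      by_cases hi : i = i₀
      · exact ⟨0, fun h' => absurd hi h'⟩
      · obtain ⟨k, hk⟩ := LocQep.exists_pow_mul_mem (hW.unif i) (hcut i hi)
          (algebraMap E F ρ' * z)
        exact ⟨k, fun _ => hk⟩
    choose k hk using hex
    have : NeZero p := ⟨(Fact.out : p.Prime).ne_zero⟩
    set M : ℕ := Finset.univ.sup k with hM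
    have hall : ∀ i, (e : F) ^ M * (algebraMap E F ρ' * z) ∈ W i := by
      intro i
      by_cases hi : i = i₀
      · rw [hi]
        exact (W i₀).mul_mem _ _ ((W i₀).pow_mem (hBW _ _ e.2) M)
          ((W i₀).mul_mem _ _ (hRW _ _ hm1) hz)
      · obtain ⟨j, hj⟩ := Nat.exists_eq_add_of_le (Finset.le_sup (f := k) (Finset.mem_univ i))
        rw [← hM] at hj
        rw [hj, pow_add, mul_comm ((e : F) ^ k i), mul_assoc]
        exact (W i).mul_mem _ _ ((W i).pow_mem (hBW _ _ e.2) j) (hk i hi)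
    have hint : IsIntegral R ((e : F) ^ M * (algebraMap E F ρ' * z)) := by
      refine hP7 _ m ?_ hall
      have e1 : algebraMap E F (π c) ^ m * ((e : F) ^ M * (algebraMap E F ρ' * z)) =
          (e : F) ^ M * (ρ • z) := by
        have e2 : ρ • z = algebraMap E F (ρ : E) * z := by
          rw [Algebra.smul_def]
          rfl
        have e3 : (ρ : E) = π c ^ m * ρ' := by
          rw [hρ', mul_div_assoc', mul_div_cancel_left₀ _ (pow_ne_zero _ hπ0)]
        rw [e2, e3, map_mul, map_pow]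
        ring
      rw [e1]
      exact (e.2.pow M).mul hρ
    refine ⟨(e : F) ^ M * algebraMap E F ρ', ?_, ?_, ?_⟩
    · exact le_locSub (B := icl R F) ((e.2.pow M).mul (hRB _ hm1))
    · rw [map_mul, map_pow, hunit e he, one_pow, one_mul]
      exact (hW.val_map_eq (i₀) ρ').mpr hm2
    · rw [mul_assoc]
      exact le_locSub (B := icl R F) hint
  · -- dvr
    obtain ⟨t₀, ht₀, hdvr⟩ := (h.thr c).dvr
    refine ⟨algebraMap E F t₀, ?_, ?_⟩
    · have hb : (⟨algebraMap E F t₀, hRB _ ht₀.1⟩ : icl R F) ∈ 𝔫 :=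
        hP8 _ t₀ ht₀ rfl
      exact coe_mem_rad_locSub hb
    · intro z hz
      obtain ⟨r, hr, hzr, hiff⟩ := hP11 z hz.1
      have hr' : r ∈ rad R := ⟨hr, fun hu => hz.2 (hiff.mpr hu)⟩
      obtain ⟨r₁, hr₁, hv⟩ := hdvr r hr'
      refine ⟨algebraMap E F r₁, le_locSub (B := icl R F) (hRB _ hr₁), ?_⟩
      have e : z - algebraMap E F r₁ * algebraMap E F t₀ =
          (z - algebraMap E F r) + algebraMap E F (r - r₁ * t₀) := by
        rw [map_sub, map_mul]
        ring
      rw [e]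
      exact Valuation.map_add_lt _ hzr ((hW.val_map_lt (i₀) _).mpr hv)

end P

end Fermat.Agent.S44.PL

end
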