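/-
S44 / X / PL, node P13 (task 2175, helper181): `RegPt.lift_through`
(wrapper of `Pur/LiftThroughCore.lean`).
-/
import Fermat.Agent.S44.X.PL.Pur.LiftThroughCore
import Fermat.Agent.S44.X.PL.Pur.IclDiv
import Fermat.Agent.S44.X.PL.Pur.Max
import Fermat.Agent.S44.X.PL.Pur.Cut
import Fermat.Agent.S44.X.PL.Pur.LiftDense

set_option autoImplicit false

noncomputable section

namespace Fermat.Agent.S44.PL

open Fermat.Agent.S18 Fermat.Agent.S36.BP Fermat.Agent.KLB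

section P

variable {K₀ E F : Type*} [Field K₀] [Field E] [Field F] [Algebra K₀ E] [Algebra E F]
  [Algebra K₀ F] [IsScalarTower K₀ E F] {A₀ : ValuationSubring K₀} {p : ℕ} [Fact p.Prime]
  [FiniteDimensional E F] [IsGalois E F] {σ : F ≃ₐ[E] F}
  {R : Subring E} {ι : Type*} [Fintype ι] {V : ι → ValuationSubring E} {π : ι → E}
  {W : ι → ZMod p → ValuationSubring F}

/-- P13 -/
theorem RegPt.lift_through (hdeg : Module.finrank E F = p) (hσ : σ ≠ 1) (h : RegPt A₀ p R V π)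
    (hW : ∀ c, Sheets p σ (V c) (W c)) {w : F} (hw : IsIntegral R w)
    (hsep : ∀ k : ℕ, ¬ p ∣ k → (σ ^ k) w - w ≠ 0 ∧ IsIntegral R ((σ ^ k) w - w)⁻¹)
    (𝔫 : Ideal (icl R F)) [𝔫.IsMaximal] (l : ι → ZMod p) (hl : OnSheets R W 𝔫 l) (c : ι) :
    Through (locSub (icl R F) 𝔫) (W c (l c)) :=
  h.lift_through_core c (hW c) 𝔫 (l c) (hl c)
    (fun _ m hz hv => h.icl_of_pow_mul hdeg hσ c (hW c) m hz hv)
    (fun b _ hr hb => h.rad_le hdeg hσ c (hW c) 𝔫 (l c) (hl c) b hr hb)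
    (h.exists_cut hdeg hσ hW hw hsep 𝔫 l hl c)
    (fun _ hz => h.lift_dense hdeg hσ hW 𝔫 l hl c hz)

end P

end Fermat.Agent.S44.PL

end
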