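/-
S44 / X / PL, node P4: `c + m z` is a unit of the integral closure of `R` if `c` is a unit of `R`,
`m` lies in the radical of `R` and `z` is integral over `R`.
-/
import Fermat.Agent.S44.X.PL.Defs
import Fermat.Agent.S36.BP.Rad

set_option autoImplicit false

noncomputable section

namespace Fermat.Agent.S44.PL

open Fermat.Agent.S18 Fermat.Agent.S36.BP Fermat.Agent.KLB

section P

variable {E F : Type*} [Field E] [Field F] [Algebra E F] {p : ℕ} [Fact p.Prime]
  [FiniteDimensional E F] [IsGalois E F] {σ : F ≃ₐ[E] F}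

omit [Fact p.Prime] [FiniteDimensional E F] [IsGalois E F] in
theorem UnitAdd.isIntegral_algebraMap_of_mem {R : Subring E} {e : E} (he : e ∈ R) :
    IsIntegral R (algebraMap E F e) :=
  isIntegral_algebraMap (R := R) (A := F) (x := ⟨e, he⟩)

omit [Fact p.Prime] [FiniteDimensional E F] [IsGalois E F] in
/-- `∏ (c + m y_i) = c ^ k + m t` with `t` integral. -/
theorem UnitAdd.prod_eq {ι : Type*} (s : Finset ι) {R : Subring E} {c m : E} (hc : c ∈ R)
    (hm : m ∈ R) (y : ι → F) (hy : ∀ i ∈ s, IsIntegral R (y i)) :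
    ∃ t : F, IsIntegral R t ∧ ∏ i ∈ s, (algebraMap E F c + algebraMap E F m * y i) =
      algebraMap E F c ^ s.card + algebraMap E F m * t := by
  classical
  induction s using Finset.induction_on with
  | empty => exact ⟨0, isIntegral_zero, by simp⟩
  | insert a s ha ih =>
    obtain ⟨t, ht, e⟩ := ih fun i hi => hy i (Finset.mem_insert_of_mem hi)
    have hya := hy a (Finset.mem_insert_self a s)
    have hcF : IsIntegral R (algebraMap E F c) := UnitAdd.isIntegral_algebraMap_of_mem hc
    have hmF : IsIntegral R (algebraMap E F m) := UnitAdd.isIntegral_algebraMap_of_mem hm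
    refine ⟨algebraMap E F c * t + y a * algebraMap E F c ^ s.card +
      algebraMap E F m * y a * t, ((hcF.mul ht).add (hya.mul (hcF.pow _))).add
        ((hmF.mul hya).mul ht), ?_⟩
    rw [Finset.prod_insert ha, e, Finset.card_insert_of_notMem ha]
    ring

/-- P4 -/
theorem isIntegral_inv_unit_add (hdeg : Module.finrank E F = p) (hσ : σ ≠ 1) {R : Subring E}
    (hadd : ∀ a ∈ rad R, ∀ b ∈ rad R, a + b ∈ rad R)
    (hic : ∀ e : E, IsIntegral R e → e ∈ R) {c m : E} (hc : RUnit R c) (hm : m ∈ rad R) {z : F}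
    (hz : IsIntegral R z) :
    algebraMap E F c + algebraMap E F m * z ≠ 0 ∧
      IsIntegral R (algebraMap E F c + algebraMap E F m * z)⁻¹ := by
  classical
  set w : F := algebraMap E F c + algebraMap E F m * z with hw
  have hzτ : ∀ τ : F ≃ₐ[E] F, IsIntegral R (τ z) := fun τ => hz.map τ
  have hwτ : ∀ τ : F ≃ₐ[E] F, τ w = algebraMap E F c + algebraMap E F m * τ z := by
    intro τ
    rw [hw, map_add, map_mul, AlgEquiv.commutes, AlgEquiv.commutes]
  have hwint : ∀ τ : F ≃ₐ[E] F, IsIntegral R (τ w) := by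
    intro τ
    rw [hwτ]
    exact (UnitAdd.isIntegral_algebraMap_of_mem hc.mem).add
      ((UnitAdd.isIntegral_algebraMap_of_mem hm.1).mul (hzτ τ))
  have hnorm : algebraMap E F (Algebra.norm E w) = ∏ τ : F ≃ₐ[E] F, τ w :=
    Algebra.norm_eq_prod_automorphisms E w
  set ν : E := Algebra.norm E w with hν
  obtain ⟨t, ht, e⟩ := UnitAdd.prod_eq (Finset.univ : Finset (F ≃ₐ[E] F)) hc.mem hm.1
    (fun τ => τ z) (fun τ _ => hzτ τ)
  set n : ℕ := (Finset.univ : Finset (F ≃ₐ[E] F)).card with hn
  have e' : algebraMap E F ν = algebraMap E F c ^ n + algebraMap E F m * t := by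
    rw [hnorm, ← e]
    exact Finset.prod_congr rfl fun τ _ => hwτ τ
  -- `ν` is a unit of `R`
  have hνu : RUnit R ν := by
    by_cases hm0 : m = 0
    · have : ν = c ^ n := by
        apply (algebraMap E F).injective
        rw [e', hm0, map_zero, zero_mul, add_zero, map_pow]
      rw [this]
      exact hc.pow n
    · have hmF : algebraMap E F m ≠ 0 := (_root_.map_ne_zero _).mpr hm0
      have ht' : t = algebraMap E F ((ν - c ^ n) / m) := by
        rw [map_div₀, map_sub, map_pow, e', add_sub_cancel_left, mul_div_cancel_left₀ _ hmF]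
      have hτint : IsIntegral R ((ν - c ^ n) / m) := by
        rw [ht'] at ht
        exact (isIntegral_algebraMap_iff (algebraMap E F).injective).mp ht
      have hτR := hic _ hτint
      have hνeq : ν = c ^ n + m * ((ν - c ^ n) / m) := by
        field_simp
        ring
      have hmτ : m * ((ν - c ^ n) / m) ∈ rad R := by
        rw [mul_comm]
        exact mul_mem_rad hτR hm
      have hνR : ν ∈ R := by
        rw [hνeq]
        exact R.add_mem (R.pow_mem hc.mem n) hmτ.1
      rcases runit_or_mem_rad hνR with hu | hr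
      · exact hu
      · exfalso
        have h1 := hadd _ hr _ (neg_mem_rad hmτ)
        have h2 : ν + -(m * ((ν - c ^ n) / m)) = c ^ n := by
          field_simp
          ring
        rw [h2] at h1
        exact h1.2 (hc.pow n)
  have hνF : algebraMap E F ν ≠ 0 := (_root_.map_ne_zero _).mpr hνu.ne_zero
  have hsplit : algebraMap E F ν =
      w * ∏ τ ∈ (Finset.univ : Finset (F ≃ₐ[E] F)).erase 1, τ w := by
    rw [hnorm, ← Finset.mul_prod_erase Finset.univ (fun τ : F ≃ₐ[E] F => τ w) (Finset.mem_univ 1)]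
    rfl
  have hw0 : w ≠ 0 := by
    intro h0
    rw [h0, zero_mul] at hsplit
    exact hνF hsplit
  refine ⟨hw0, ?_⟩
  have hinv : w⁻¹ = algebraMap E F ν⁻¹ *
      ∏ τ ∈ (Finset.univ : Finset (F ≃ₐ[E] F)).erase 1, τ w := by
    rw [map_inv₀, hsplit]
    have hP : ∏ τ ∈ (Finset.univ : Finset (F ≃ₐ[E] F)).erase 1, τ w ≠ 0 := by
      intro h0
      rw [h0, mul_zero] at hsplit
      exact hνF hsplit
    field_simp
  rw [hinv]
  exact (UnitAdd.isIntegral_algebraMap_of_mem hνu.inv_mem).mul
    (IsIntegral.prod _ fun τ _ => hwint τ)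

end P

end Fermat.Agent.S44.PL

end
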