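/-
S44, node X, block PL, node P5 (architect helper223, proof helper199): the separating element.
-/
import Fermat.Agent.S44.X.PL.Defs
import Fermat.Agent.S36.BP.Rad
import Fermat.Agent.S44.X.PL.Cyc
import Fermat.Agent.S44.X.PL.Pur.UnitAdd

set_option autoImplicit false
set_option linter.unusedSectionVars false

noncomputable section

namespace Fermat.Agent.S44.PL

open Fermat.Agent.S18 Fermat.Agent.S36.BP Fermat.Agent.KLB

variable {E F : Type*} [Field E] [Field F] [Algebra E F] {p : ℕ} [Fact p.Prime]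
  [FiniteDimensional E F] [IsGalois E F] {σ : F ≃ₐ[E] F}

private theorem sep_sum_shift (a : ℕ → F) (n : ℕ) :
    ∑ i ∈ Finset.range n, (i : F) * a (i + 1) + ∑ i ∈ Finset.range n, a (i + 1) =
      ∑ i ∈ Finset.range n, (i : F) * a i + n * a n := by
  induction n with
  | zero => simp
  | succ n ih =>
    rw [Finset.sum_range_succ, Finset.sum_range_succ, Finset.sum_range_succ (fun i => (i : F) * a i)]
    push_cast
    linear_combination ih

private theorem sep_isIntegral_pow {R : Subring E} {z : F} (hz : IsIntegral R z) (l : ℕ) :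
    IsIntegral R ((σ ^ l) z) :=
  hz.map ((σ ^ l : F ≃ₐ[E] F).toAlgHom.restrictScalars R)

/-- P5 : the separating element -/
theorem exists_sep_elt (hdeg : Module.finrank E F = p) (hσ : σ ≠ 1) {R : Subring E}
    (hadd : ∀ a ∈ rad R, ∀ b ∈ rad R, a + b ∈ rad R)
    (hic : ∀ e : E, IsIntegral R e → e ∈ R) (hp : (p : E) ∈ rad R)
    (hun : ∀ k : ℕ, ¬ p ∣ k → RUnit R (k : E)) {z : F} (hz : IsIntegral R z)
    (htr : Algebra.trace E F z = 1) :
    ∃ w : F, IsIntegral R w ∧
      ∀ k : ℕ, ¬ p ∣ k → (σ ^ k) w - w ≠ 0 ∧ IsIntegral R ((σ ^ k) w - w)⁻¹ := by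
  set w : F := ∑ i ∈ Finset.range p, (i : F) * (σ ^ i) z with hw
  have hsum : ∑ i ∈ Finset.range p, (σ ^ i) z = 1 := by
    rw [← cyc_trace hdeg hσ z, htr, map_one]
  have hpz : (σ ^ p) z = z := by rw [cyc_pow_eq_one hdeg σ]; rfl
  -- `σ w = w + p z - 1`
  have h1 : σ w = w + p * z - 1 := by
    have e1 : σ w = ∑ i ∈ Finset.range p, (i : F) * (σ ^ (i + 1)) z := by
      rw [hw, map_sum]
      refine Finset.sum_congr rfl fun i _ => ?_
      rw [map_mul, map_natCast, pow_succ', AlgEquiv.mul_apply]
    have e2 := sep_sum_shift (fun i => (σ ^ i) z) p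
    have e3 : ∑ i ∈ Finset.range p, (σ ^ (i + 1)) z = 1 := by
      have := Finset.sum_range_succ' (fun i => (σ ^ i) z) p
      rw [Finset.sum_range_succ, hsum, hpz] at this
      have h0 : (σ ^ 0) z = z := by rw [pow_zero]; rfl
      rw [h0] at this
      exact (add_right_cancel this).symm
    rw [e3, hpz, ← e1, ← hw] at e2
    linear_combination e2
  have h2 : ∀ k : ℕ, (σ ^ k) w - w = -(k : F) + p * ∑ l ∈ Finset.range k, (σ ^ l) z := by
    intro k
    induction k with
    | zero =>
      have h0 : (σ ^ 0) w = w := by rw [pow_zero]; rfl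
      rw [h0]; simp
    | succ k ih =>
      rw [pow_succ, AlgEquiv.mul_apply, h1, map_sub, map_add, map_mul, map_natCast, map_one,
        Finset.sum_range_succ]
      push_cast
      linear_combination ih
  refine ⟨w, ?_, fun k hk => ?_⟩
  · refine IsIntegral.sum _ fun i _ => IsIntegral.mul ?_ (sep_isIntegral_pow hz i)
    have := isIntegral_algebraMap (R := R) (A := F) (x := (i : R))
    rwa [map_natCast] at this
  · have hS : IsIntegral R (∑ l ∈ Finset.range k, (σ ^ l) z) :=
      IsIntegral.sum _ fun l _ => sep_isIntegral_pow hz l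
    have := isIntegral_inv_unit_add hdeg hσ hadd hic (c := -(k : E)) (m := (p : E))
      (RUnit.neg (hun k hk)) hp hS
    rw [map_neg, map_natCast, map_natCast, ← h2 k] at this
    exact this

end Fermat.Agent.S44.PL

end
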