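/-
S44 / X / PL, node P3 (task 2166, helper288): `exists_trace_one`.
A free integral closure with trivial codifferent over a local ring contains an element of trace 1.
-/
import Fermat.Agent.S36.BP.Rad
import Fermat.Agent.KLB.Abs.Defs

set_option autoImplicit false

noncomputable section

namespace Fermat.Agent.S44.PL

open Fermat.Agent.S36.BP Fermat.Agent.KLB

variable {E F : Type*} [Field E] [Field F] [Algebra E F] [FiniteDimensional E F]

/-- P3 -/
theorem exists_trace_one [Algebra.IsSeparable E F] {R : Subring E}
    (hadd : ∀ a ∈ rad R, ∀ b ∈ rad R, a + b ∈ rad R)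
    (hic : ∀ e : E, IsIntegral R e → e ∈ R) (hU : Unr R E F) {n : ℕ}
    (b : Module.Basis (Fin n) E F) (hb : ∀ i, IsIntegral R (b i))
    (hspan : ∀ z : F, IsIntegral R z →
      ∃ a : Fin n → E, (∀ i, a i ∈ R) ∧ z = ∑ i, algebraMap E F (a i) * b i) :
    ∃ z : F, IsIntegral R z ∧ Algebra.trace E F z = 1 := by
  classical
  set d := (Algebra.traceForm E F).dualBasis (traceForm_nondegenerate E F) b with hd
  have hdb : ∀ i j, Algebra.trace E F (d i * b j) = if j = i then 1 else 0 := by
    intro i j
    rw [← Algebra.traceForm_apply]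
    exact LinearMap.BilinForm.apply_dualBasis_left _ _ _ _
  have htr : ∀ (a : Fin n → E) i,
      Algebra.trace E F (d i * ∑ j, algebraMap E F (a j) * b j) = a i := by
    intro a i
    rw [Finset.mul_sum, map_sum]
    have : ∀ j, Algebra.trace E F (d i * (algebraMap E F (a j) * b j))
        = a j * (if j = i then 1 else 0) := by
      intro j
      rw [mul_left_comm, ← Algebra.smul_def, map_smul, hdb, smul_eq_mul]
    simp [this]
  have hmemint : ∀ e ∈ R, IsIntegral R e := fun e he =>
    (isIntegral_algebraMap (R := R) (A := E) (x := ⟨e, he⟩))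
  have hdint : ∀ i, IsIntegral R (d i) := by
    intro i
    refine hU _ fun z hz => ?_
    obtain ⟨a, ha, rfl⟩ := hspan z hz
    rw [htr]
    exact hmemint _ (ha i)
  obtain ⟨a, ha, h1⟩ := hspan 1 isIntegral_one
  have hex : ∃ j, RUnit R (a j) := by
    by_contra hne
    push Not at hne
    have hrad : ∀ j, a j ∈ rad R := fun j => ⟨ha j, hne j⟩
    have hi : Nonempty (Fin n) := by
      by_contra h
      rw [not_nonempty_iff] at h
      rw [Finset.univ_eq_empty, Finset.sum_empty] at h1
      exact one_ne_zero h1
    obtain ⟨i⟩ := hi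
    choose t ht hbt using fun j => hspan (b i * b j) ((hb i).mul (hb j))
    have e1 : b i = ∑ j, algebraMap E F (a j) * (b i * b j) := by
      calc b i = b i * 1 := (mul_one _).symm
        _ = b i * ∑ j, algebraMap E F (a j) * b j := by rw [← h1]
        _ = _ := by rw [Finset.mul_sum]; exact Finset.sum_congr rfl fun j _ => by ring
    have e2 : (1 : E) = ∑ j, a j * t j i := by
      have h2 := congrArg (fun w => Algebra.trace E F (d i * w)) e1
      rw [hdb, if_pos rfl, Finset.mul_sum, map_sum] at h2
      rw [h2]
      refine Finset.sum_congr rfl fun j _ => ?_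
      rw [mul_left_comm, ← Algebra.smul_def, map_smul, smul_eq_mul, hbt j, htr]
    have hsum : ∀ s : Finset (Fin n), ∑ j ∈ s, a j * t j i ∈ rad R := by
      intro s
      induction s using Finset.induction_on with
      | empty => simpa using zero_mem_rad R
      | insert j s hj ih =>
        rw [Finset.sum_insert hj]
        exact hadd _ (by rw [mul_comm]; exact mul_mem_rad (ht j i) (hrad j)) _ ih
    have h3 := hsum Finset.univ
    rw [← e2] at h3
    exact h3.2 (RUnit.one R)
  obtain ⟨j, hj⟩ := hex
  refine ⟨algebraMap E F (a j)⁻¹ * d j, ?_, ?_⟩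
  · exact ((hmemint _ hj.inv_mem).algebraMap).mul (hdint j)
  · rw [← Algebra.smul_def, map_smul, smul_eq_mul]
    have h4 := htr a j
    rw [← h1, mul_one] at h4
    rw [h4, inv_mul_cancel₀ hj.ne_zero]

end Fermat.Agent.S44.PL

end
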