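/-
S44 / X / PL, node P2, core (owner helper47): the integral closure of a local normal noetherian
domain `R` with a prime element `ϖ` in its radical such that `R / ϖ` is principal is free.
-/
import Fermat.Agent.S44.X.PL.Defs
import Fermat.Agent.S36.BP.Rad
import Fermat.Agent.KLB.Abs.Free

set_option autoImplicit false

noncomputable section

namespace Fermat.Agent.S44.PL

open Fermat.Agent.S18 Fermat.Agent.S36.BP Fermat.Agent.KLB

/-- P2, abstract form. -/
theorem exists_basis_of_near {E F : Type*} [Field E] [Field F] [Algebra E F]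
    [FiniteDimensional E F] [Algebra.IsSeparable E F] {R : Subring E} [IsFractionRing R E]
    [IsIntegrallyClosed R] [IsNoetherianRing R] {ϖ : R} (hϖ : Prime ϖ)
    [IsPrincipalIdealRing (R ⧸ Ideal.span {ϖ})] {O : Subring E} (hO : IsLocSub (ndvd hϖ) O)
    (hadd : ∀ a ∈ rad R, ∀ b ∈ rad R, a + b ∈ rad R) (hrad : (ϖ : E) ∈ rad R) :
    ∃ (n : ℕ) (b : Module.Basis (Fin n) E F), (∀ i, IsIntegral R (b i)) ∧
      ∀ z : F, IsIntegral R z →
        ∃ a : Fin n → E, (∀ i, a i ∈ R) ∧ z = ∑ i, algebraMap E F (a i) * b i := by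
  obtain ⟨n, b, s, hb, ⟨t, ht⟩, hspan⟩ := exists_basis_near hϖ hO (E := F)
  have hs : RUnit R (s : E) := by
    rcases runit_or_mem_rad s.2 with h | h
    · exact h
    · exfalso
      have h1 : (t : E) * (ϖ : E) ∈ rad R := mul_mem_rad t.2 hrad
      have h2 := hadd _ h _ (neg_mem_rad h1)
      have h3 : (s : E) + -((t : E) * (ϖ : E)) = 1 := by
        have h4 : (s : E) - 1 = (ϖ : E) * (t : E) := by exact_mod_cast congrArg Subtype.val ht
        linear_combination h4
      rw [h3] at h2
      exact h2.2 (RUnit.one R)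
  refine ⟨n, b, hb, fun z hz => ?_⟩
  obtain ⟨a, ha⟩ := hspan z hz
  refine ⟨fun i => (s : E)⁻¹ * (a i : E), fun i => R.mul_mem hs.inv_mem (a i).2, ?_⟩
  have hsF : algebraMap E F (s : E) ≠ 0 := (map_ne_zero _).2 hs.ne_zero
  have ha' : algebraMap E F (s : E) * z = ∑ i, algebraMap E F (a i : E) * b i := ha
  have h5 : z = (algebraMap E F (s : E))⁻¹ * (algebraMap E F (s : E) * z) := by
    rw [inv_mul_cancel_left₀ hsF]
  rw [h5, ha', Finset.mul_sum]
  refine Finset.sum_congr rfl fun i _ => ?_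
  rw [map_mul, map_inv₀, mul_assoc]

end Fermat.Agent.S44.PL

end
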