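/-
S44 / X / PL, node P2 (core: helper47, `Pur/BasisCore.lean`; wrapper: shadow helper195): the integral
closure of a regular point is free.
-/
import Fermat.Agent.S44.X.PL.Ring
import Fermat.Agent.S44.X.PL.Pur.BasisCore

set_option autoImplicit false

noncomputable section

namespace Fermat.Agent.S44.PL

open Fermat.Agent.S18 Fermat.Agent.S18.Abs Fermat.Agent.S36.BP Fermat.Agent.KLB

section P

variable {K₀ E F : Type*} [Field K₀] [Field E] [Field F] [Algebra K₀ E] [Algebra E F]
  [Algebra K₀ F] [IsScalarTower K₀ E F] {A₀ : ValuationSubring K₀} {p : ℕ} [Fact p.Prime]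
  [FiniteDimensional E F] [IsGalois E F] {σ : F ≃ₐ[E] F}
  {R : Subring E} {ι : Type*} [Fintype ι] {V : ι → ValuationSubring E} {π : ι → E}
  {W : ι → ZMod p → ValuationSubring F}

/-- P2 -/
theorem RegPt.exists_basis (h : RegPt A₀ p R V π) :
    ∃ (n : ℕ) (b : Module.Basis (Fin n) E F), (∀ i, IsIntegral R (b i)) ∧
      ∀ z : F, IsIntegral R z →
        ∃ a : Fin n → E, (∀ i, a i ∈ R) ∧ z = ∑ i, algebraMap E F (a i) * b i := by
  obtain ⟨c⟩ := h.nonempty
  have := h.isFractionRing
  have := h.isIntegrallyClosed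
  have := h.pt.noeth
  have := h.pir c
  exact exists_basis_of_near (h.prime c) (h.isLocSub c) h.pt.add_rad (h.pi_mem_rad c)

end P

end Fermat.Agent.S44.PL

end
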